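/-
Programme S33 (row 32), A-half, bricks (S3)+(S4) of helper16's interface (report 1307), helper76:
**STABLE SUBMODULES + THE DICHOTOMY PER MINIMAL PRIME** (Mathlib + `Alg16.MinPrimes.IsAnnWitness`).

`ρ : G →* End_T(V)` with `span_T ρ(G) = End_T(V)` (`hspan`, "absolutely irreducible").

* `map_mem_of_stable`       : a `ρ`-stable `T`-submodule `W ≤ V` is stable under EVERY endomorphism;
* `repr_smul_mem_of_stable` : for `w ∈ W` and a basis `b`, `b.repr w i • v ∈ W` for all `i`, `v`;
* `dichotomy`               : `Φ : V → X` `T`-linear equivariant, `X` torsion-free over a subring-like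
  `Z → T` with `T` integral over `Z`, `𝔭` a prime with annihilator witness `a` (`Ann a = 𝔭`): EITHER
  `Φ` kills `a V` OR `Φ` is injective on `a V`.
-/
import Mathlib
import Fermat.Agent.S33P.Alg16.MinPrimes

set_option autoImplicit false
set_option linter.unusedSectionVars false
set_option linter.style.haveILetI false

namespace Fermat.Agent.S33P.Dich76

open Fermat.Agent.S33P.Alg16.MinPrimes

section Stable

variable {T : Type*} [CommRing T] {V : Type*} [AddCommGroup V] [Module T V]
  {G : Type*} [Monoid G] (ρ : G →* Module.End T V)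

/-- A `ρ`-stable submodule is stable under every endomorphism when `ρ(G)` spans `End_T(V)`. -/
theorem map_mem_of_stable (hspan : Submodule.span T (Set.range ρ) = ⊤) (W : Submodule T V)
    (hW : ∀ g, ∀ w ∈ W, ρ g w ∈ W) (f : Module.End T V) {w : V} (hw : w ∈ W) : f w ∈ W := by
  have hf : f ∈ Submodule.span T (Set.range ρ) := by
    rw [hspan]
    trivial
  induction hf using Submodule.span_induction with
  | mem x hx =>
    obtain ⟨g, rfl⟩ := hx
    exact hW g w hw
  | zero =>
    rw [LinearMap.zero_apply]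
    exact W.zero_mem
  | add x y _ _ hx hy =>
    rw [LinearMap.add_apply]
    exact W.add_mem hx hy
  | smul c x _ hx =>
    rw [LinearMap.smul_apply]
    exact W.smul_mem c hx

/-- Coordinates of elements of a stable submodule multiply `V` into it. -/
theorem repr_smul_mem_of_stable (hspan : Submodule.span T (Set.range ρ) = ⊤) (W : Submodule T V)
    (hW : ∀ g, ∀ w ∈ W, ρ g w ∈ W) {ι : Type*} (b : Module.Basis ι T V) {w : V} (hw : w ∈ W)
    (i : ι) (v : V) : b.repr w i • v ∈ W := by
  have h := map_mem_of_stable ρ hspan W hW ((b.coord i).smulRight v) hw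
  rwa [LinearMap.smulRight_apply, Module.Basis.coord_apply] at h

end Stable

section Dichotomy

variable {Z : Type*} [CommRing Z] {T : Type*} [CommRing T] [Algebra Z T] [Algebra.IsIntegral Z T]
  {V : Type*} [AddCommGroup V] [Module T V] [Module.Free T V] [Module.Finite T V]
  {G : Type*} [Monoid G] (ρ : G →* Module.End T V)
  {X : Type*} [AddCommGroup X] [Module T X] (ρX : G → Module.End T X)

/-- **The dichotomy per minimal prime**: an equivariant map `Φ : V → X` into a `Z`-torsion-free
module either kills `a V` or is injective on `a V` (`Ann a = 𝔭` prime). -/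
theorem dichotomy (hspan : Submodule.span T (Set.range ρ) = ⊤) (Φ : V →ₗ[T] X)
    (hΦ : ∀ g v, Φ (ρ g v) = ρX g (Φ v))
    (htf : ∀ z : Z, z ≠ 0 → ∀ x : X, algebraMap Z T z • x = 0 → x = 0)
    (𝔭 : Ideal T) [𝔭.IsPrime] (a : T) (ha : IsAnnWitness 𝔭 a) :
    (∀ v : V, Φ (a • v) = 0) ∨ (∀ v : V, Φ (a • v) = 0 → a • v = 0) := by
  classical
  -- the stable submodule `W = ker (Φ ∘ a)`
  let W : Submodule T V := LinearMap.ker (Φ ∘ₗ (a • (LinearMap.id : V →ₗ[T] V)))
  have hWmem : ∀ w : V, w ∈ W ↔ Φ (a • w) = 0 := by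
    intro w
    simp [W]
  have hW : ∀ g, ∀ w ∈ W, ρ g w ∈ W := by
    intro g w hw
    rw [hWmem] at hw ⊢
    rw [← map_smul, hΦ, hw, map_zero]
  by_cases h : ∃ t : T, t ∉ 𝔭 ∧ ∀ v : V, Φ (a • t • v) = 0
  · -- LEFT
    left
    obtain ⟨t, ht, htv⟩ := h
    haveI : Nontrivial T := ⟨⟨0, 1, fun h01 => (inferInstance : 𝔭.IsPrime).ne_top
      ((Ideal.eq_top_iff_one _).2 (h01 ▸ 𝔭.zero_mem))⟩⟩
    haveI : Nontrivial Z := by
      by_contra hZ
      rw [not_nontrivial_iff_subsingleton] at hZ
      have h1 : (algebraMap Z T 1 : T) = algebraMap Z T 0 := by rw [Subsingleton.elim (1 : Z) 0]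
      rw [map_one, map_zero] at h1
      exact one_ne_zero h1
    have hint : IsIntegral Z (Ideal.Quotient.mk 𝔭 t) := by
      have h1 : IsIntegral Z t := Algebra.IsIntegral.isIntegral t
      exact h1.map (Ideal.Quotient.mkₐ Z 𝔭)
    have hne : Ideal.Quotient.mk 𝔭 t ≠ 0 := by
      rwa [Ne, Ideal.Quotient.eq_zero_iff_mem]
    obtain ⟨z, hz0, c, hc⟩ := hint.isAlgebraic.exists_nonzero_dvd
      (mem_nonZeroDivisors_of_ne_zero hne)
    obtain ⟨s, rfl⟩ := Ideal.Quotient.mk_surjective c
    have hmem : algebraMap Z T z - t * s ∈ 𝔭 := by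
      rw [← Ideal.Quotient.eq_zero_iff_mem, map_sub, map_mul, ← hc, sub_eq_zero]
      rfl
    have hmul : algebraMap Z T z * a = a * t * s := by
      have := ha.mul_eq_zero hmem
      linear_combination this
    intro v
    apply htf z hz0
    rw [← map_smul, smul_smul, hmul, mul_assoc, ← smul_smul, ← smul_smul]
    exact htv (s • v)
  · -- RIGHT
    right
    intro v hv
    have hvW : v ∈ W := (hWmem v).2 hv
    let b := Module.Free.chooseBasis T V
    apply b.ext_elem
    intro i
    have hci : b.repr v i ∈ 𝔭 := by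
      by_contra hnot
      apply h
      refine ⟨b.repr v i, hnot, fun v' => ?_⟩
      exact (hWmem _).1 (repr_smul_mem_of_stable ρ hspan W hW b hvW i v')
    rw [map_smul, map_zero, Finsupp.smul_apply, Finsupp.zero_apply, smul_eq_mul, mul_comm]
    exact ha.mul_eq_zero hci

end Dichotomy

end Fermat.Agent.S33P.Dich76
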